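import Fermat.Statements.S02

set_option autoImplicit false
open FreyPackage

namespace Fermat.Agent.S02

/-- Coprime solution with `b` even gives a Frey package. -/
theorem freyPackage_of_coprime_even {a b c : ℤ} (ha : a ≠ 0) (hb : b ≠ 0) (hc : c ≠ 0)
    (p : ℕ) (pp : p.Prime) (hp5 : 5 ≤ p) (H : a ^ p + b ^ p = c ^ p)
    (hab : gcd a b = 1) (hb2 : (2 : ℤ) ∣ b) : Nonempty FreyPackage := by
  have podd : Odd p := pp.odd_of_ne_two (by omega)
  have hb2' : (b : ZMod 2) = 0 := (ZMod.intCast_zmod_eq_zero_iff_dvd b 2).2 hb2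
  -- a is odd
  have ha_odd : ¬ (2 : ℤ) ∣ a := by
    intro h2a
    have : (2 : ℤ) ∣ gcd a b := dvd_gcd h2a hb2
    rw [hab] at this
    norm_num at this
  have hmod : a % 4 = 1 ∨ a % 4 = 3 := by
    have : a % 2 = 1 := by omega
    omega
  rcases hmod with h1 | h3
  · -- use (-a, -b, -c)
    refine ⟨⟨-a, -b, -c, neg_ne_zero.2 ha, neg_ne_zero.2 hb, neg_ne_zero.2 hc, p, pp, hp5, ?_, ?_, ?_, ?_⟩⟩
    · rw [podd.neg_pow, podd.neg_pow, podd.neg_pow, ← H]; ring
    · rw [gcd_neg, neg_gcd]; exact hab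
    · have h4 : (4 : ℤ) ∣ (-a - 3) := by omega
      have := (ZMod.intCast_zmod_eq_zero_iff_dvd (-a - 3) 4).2 h4
      push_cast at this
      push_cast
      linear_combination this
    · push_cast; rw [hb2']; simp
  · refine ⟨⟨a, b, c, ha, hb, hc, p, pp, hp5, H, hab, ?_, hb2'⟩⟩
    have h4 : (4 : ℤ) ∣ (a - 3) := by omega
    have := (ZMod.intCast_zmod_eq_zero_iff_dvd (a - 3) 4).2 h4
    push_cast at this
    linear_combination this

/-- Coprime solution gives a Frey package. -/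
theorem freyPackage_of_coprime {a b c : ℤ} (ha : a ≠ 0) (hb : b ≠ 0) (hc : c ≠ 0)
    (p : ℕ) (pp : p.Prime) (hp5 : 5 ≤ p) (H : a ^ p + b ^ p = c ^ p)
    (hab : gcd a b = 1) : Nonempty FreyPackage := by
  have podd : Odd p := pp.odd_of_ne_two (by omega)
  have hp0 : 0 < p := by omega
  by_cases hb2 : (2 : ℤ) ∣ b
  · exact freyPackage_of_coprime_even ha hb hc p pp hp5 H hab hb2
  by_cases ha2 : (2 : ℤ) ∣ a
  · exact freyPackage_of_coprime_even hb ha hc p pp hp5 (by rw [add_comm]; exact H)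
      (by rw [gcd_comm]; exact hab) ha2
  -- both a, b odd, so c is even
  have hc2 : (2 : ℤ) ∣ c := by
    have hao : Odd a := by
      rw [Int.odd_iff]; omega
    have hbo : Odd b := by
      rw [Int.odd_iff]; omega
    have : Even (c ^ p) := by
      rw [← H]
      exact (hao.pow).add_odd (hbo.pow)
    have hce : Even c := (Int.even_pow.1 this).1
    exact even_iff_two_dvd.1 hce
  -- a^p + (-c)^p = (-b)^p
  have H' : a ^ p + (-c) ^ p = (-b) ^ p := by
    rw [podd.neg_pow, podd.neg_pow, ← H]; ring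
  have hac : gcd a c = 1 := by
    rw [← gcdab_eq_gcdac hp0 H]; exact hab
  exact freyPackage_of_coprime_even ha (neg_ne_zero.2 hc) (neg_ne_zero.2 hb) p pp hp5 H'
    (by rw [gcd_neg]; exact hac) ((dvd_neg).2 hc2)

theorem result (a b c : ℤ) (ha : a ≠ 0) (hb : b ≠ 0) (hc : c ≠ 0) (p : ℕ) (pp : p.Prime) (hp5 : 5 ≤ p) (H : a ^ p + b ^ p = c ^ p) : Nonempty FreyPackage := by
  have hp0 : p ≠ 0 := by omega
  -- divide by gcd
  set d : ℤ := gcd a b with hd
  have hd0 : d ≠ 0 := by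
    intro h
    rw [hd] at h
    exact ha ((gcd_eq_zero_iff a b).1 h).1
  obtain ⟨a', ha'⟩ : d ∣ a := gcd_dvd_left a b
  obtain ⟨b', hb'⟩ : d ∣ b := gcd_dvd_right a b
  have hdc : d ∣ c := by
    rw [← Int.pow_dvd_pow_iff hp0, ← H]
    exact dvd_add (pow_dvd_pow_of_dvd (gcd_dvd_left a b) p) (pow_dvd_pow_of_dvd (gcd_dvd_right a b) p)
  obtain ⟨c', hc'⟩ := hdc
  have ha'0 : a' ≠ 0 := by rintro rfl; exact ha (by rw [ha']; ring)
  have hb'0 : b' ≠ 0 := by rintro rfl; exact hb (by rw [hb']; ring)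
  have hc'0 : c' ≠ 0 := by rintro rfl; exact hc (by rw [hc']; ring)
  have H' : a' ^ p + b' ^ p = c' ^ p := by
    have hdp : d ^ p ≠ 0 := pow_ne_zero p hd0
    apply mul_left_cancel₀ hdp
    rw [mul_add, ← mul_pow, ← mul_pow, ← mul_pow, ← ha', ← hb', ← hc', H]
  have hab' : gcd a' b' = 1 := by
    have h1 : gcd (d * a') (d * b') = normalize d * gcd a' b' := gcd_mul_left d a' b'
    rw [← ha', ← hb', ← hd] at h1
    have hnd : normalize d = d := by rw [hd]; exact normalize_gcd a b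
    rw [hnd] at h1
    have h2 : d * 1 = d * gcd a' b' := by rw [mul_one]; exact h1
    exact (mul_left_cancel₀ hd0 h2).symm
  exact freyPackage_of_coprime ha'0 hb'0 hc'0 p pp hp5 H' hab'

end Fermat.Agent.S02
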