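import Fermat.Statements.S05
import Fermat.Agent.S05.Final
import Fermat.Agent.S05.Kernel
import Fermat.Agent.S05.Congr
import Fermat.Agent.S05.CompAdd

set_option autoImplicit false
open WeierstrassCurve WeierstrassCurve.Affine WeierstrassCurve.Affine.Point
open CuspForm ModularFormClass UpperHalfPlane
open FreyPackage

namespace Fermat.Agent.S05

theorem result (P : FreyPackage) {q : ℕ} (hq : q.Prime) (hq2 : q ≠ 2) (hqp : q ≠ P.p) : P.GaloisRepUnramifiedAt q := by
  refine frey_unramified ?_ P hq hq2 hqp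
  refine ⟨?_, ?_, ?_⟩
  · intro A W hW h2 h4
    exact ⟨fun hP hQ => InE1_add A hW h2 h4 hP hQ, fun hP => InE1_neg A hW hP,
      fun n hn _ hP hnP => InE1_torsion_free A hW h2 h4 n hn hP hnP⟩
  · intro A W hW h2 h4 hd htwo x y x' y' h h' hx hxx hyy
    exact InE1_sub_of_congr A hW h2 h4 hd htwo h h' hx hxx hyy
  · intro A W s hW htwo hs hs1 h40 h4
    exact comp_add A hW htwo s hs hs1 h40 h4

end Fermat.Agent.S05
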