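-- Statement S10: vacuous, since Fermat's Last Theorem holds for the exponents 5, 7, 13
-- (Kummer: Case I by Sophie Germain, Case II by descent in the PID `ℤ[ζ_p]` + Kummer's lemma).
import Fermat.Statements.S10
import Fermat.Agent.Lib.Kummer.FLT

set_option autoImplicit false
open WeierstrassCurve WeierstrassCurve.Affine WeierstrassCurve.Affine.Point
open CuspForm ModularFormClass UpperHalfPlane
open FreyPackage

namespace Fermat.Agent.S10

theorem result (P : FreyPackage) (hp : P.p = 5 ∨ P.p = 7 ∨ P.p = 13) : ¬ HasGaloisStableCofixedLine (K := AlgebraicClosure ℚ) ℚ P.freyCurve P.p := by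
  exfalso
  have h := P.hFLT
  rcases hp with hp | hp | hp
  · rw [hp] at h
    exact Fermat.Agent.Lib.Kummer.flt_five P.a P.b P.c P.ha0 P.hb0 P.hc0 P.hgcdab h
  · rw [hp] at h
    exact Fermat.Agent.Lib.Kummer.flt_seven P.a P.b P.c P.ha0 P.hb0 P.hc0 P.hgcdab h
  · rw [hp] at h
    exact Fermat.Agent.Lib.Kummer.flt_thirteen P.a P.b P.c P.ha0 P.hb0 P.hc0 P.hgcdab h

end Fermat.Agent.S10
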