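import Fermat.Statements.S13
import Fermat.Agent.S13.Final
import Fermat.Agent.S13.FreyCard
import Fermat.Agent.S13.FreyExist
import Fermat.Agent.S13.K2Frey
import Fermat.Agent.S13.K2Rat
import Fermat.Agent.S13.KpFinal
import Fermat.Agent.S13.Minkowski
import Fermat.Agent.S05

set_option autoImplicit false
open WeierstrassCurve WeierstrassCurve.Affine WeierstrassCurve.Affine.Point
open CuspForm ModularFormClass UpperHalfPlane
open FreyPackage

namespace Fermat.Agent.S13

theorem result (P : FreyPackage) (hred : ¬ GaloisRepIsIrreducible (K := AlgebraicClosure ℚ) ℚ P.freyCurve P.p) : HasGaloisStableCofixedLine (K := AlgebraicClosure ℚ) ℚ P.freyCurve P.p := by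
  refine s13_of_interfaces P ?_ hred
  exact
    { exists_ne := frey_torsion_exists_ne P
      finite := frey_torsion_finite P
      card_le := frey_torsion_card_le P
      unip2 := fun A hA σ hσ x => K2.unip2 P A hA σ hσ x
      rat := fun x hx => K2.rat P x hx
      atp := fun A hA N hN hbot htop => Kp.frey_atp P A hA N hN hbot htop
      odd := fun q hq hq2 hqp => Fermat.Agent.S05.result P hq hq2 hqp
      km := fun H _ hopen hunr => KM.eq_top_of_exists_inertia_le H hopen hunr }

end Fermat.Agent.S13
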