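import Fermat.Statements.S16
import Fermat.Agent.S16.DualityMain
import Fermat.Agent.S16.AMain
import Fermat.Agent.S16.BAssembly

set_option autoImplicit false
open ModularCurve CuspForm
open ModularCurve

namespace Fermat.Agent.S16

theorem result
    (p : ℕ) [Fact p.Prime] :
    Nat.card (↥(heckeLatticeAlgebra p ∅) ⧸
        Ideal.map ((latticeRestrictHom p ∅).toRingHom.comp (heckeEvalForms p 2))
          (eisensteinIdeal p)) =
      eisensteinNumerator p :=
  Fermat.Agent.S16.D.s16_of_AB p (Fermat.Agent.S16.A.pieceA p) (Fermat.Agent.S16.B.statement_B p)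

end Fermat.Agent.S16
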