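import Fermat.Statements.S20
import Fermat.Agent.S20.Bridge
import Fermat.Agent.S20.CuspCtor
import Fermat.Agent.S20.JDerQ
import Fermat.Agent.S21.Assembly

set_option autoImplicit false
open CuspForm

namespace Fermat.Agent.S20

theorem result (N : ℕ) [NeZero N] :
    (Module.finrank ℂ (CuspForm (CongruenceSubgroup.Gamma0 N) 2) : ℚ) = ModularCurve.genusFormula N := by
  apply le_antisymm
  · exact Fermat.Agent.S21.finrank_cuspForm_le N
      (fun f => Fermat.Agent.S21.periodMap_mem_parabolicHoms f)
  · exact genusFormula_le_finrank (fun h hh hinv hcusp => exists_cuspForm_of h hh hinv hcusp)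
      (exists_hasQL_jDer N)

end Fermat.Agent.S20
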