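import Fermat.Statements.S22
import Fermat.Agent.S22.Abstract
import Fermat.Agent.S22.Trivial
import Fermat.Agent.S22.Hecke
import Fermat.Agent.S22.Decomp
import Fermat.Agent.S22.FG
import Fermat.Agent.S22.Separation

set_option autoImplicit false
open CuspForm

namespace Fermat.Agent.S22

open Polynomial in
/-- The period lattice separates the points of the space of cusp forms. -/
theorem lattice_separates (N : ℕ) [NeZero N] (m : ℕ)
    (f : CuspForm (CongruenceSubgroup.Gamma0 N) ((m : ℤ) + 2))
    (h : ∀ φ ∈ lattice N m, φ f = 0) : f = 0 := by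
  have H : ∀ j : ℕ, ∃ F : ℂ → ℂ, IsPrim F (integrand m f (X ^ j)) ∧
      ∀ g : Matrix.SpecialLinearGroup (Fin 2) ℤ, CuspVal F g (perLin m g (X ^ j) f) :=
    fun j => exists_normalized_prim m f (X ^ j)
  choose F hF hL using H
  refine separation N m f F (fun j hj => ?_) (fun j _ g => ?_)
  · refine (hF j).congr (fun z _ => ?_)
    simp only [integrand, trunc_X_pow hj, toC]
  · have := hL j g
    rw [h _ (perLin_mem_lattice m g _)] at this
    exact this

/-- The main case: weight `k = m + 2 ≥ 2`. -/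
theorem finite_heckeAlgebra_of_two_le (N : ℕ) [NeZero N] (m : ℕ) (S : Set ℕ) :
    Module.Finite ℤ (CuspForm.heckeAlgebra N ((m : ℤ) + 2) S) := by
  unfold CuspForm.heckeAlgebra
  refine finite_adjoin_of_lattice _ (lattice N m) (lattice_fg N m) ?_ (lattice_separates N m)
  rintro T (⟨ℓ, hℓ, hℓN, -, rfl⟩ | ⟨q, hqN, -, -, rfl⟩)
  · exact lattice_stable_heckeT m exists_mob_decomp hℓ hℓN
  · exact lattice_stable_heckeU m exists_mob_decomp hqN

theorem result (N : ℕ) [NeZero N] (k : ℤ) (S : Set ℕ) :
    Module.Finite ℤ (CuspForm.heckeAlgebra N k S) := by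
  rcases le_or_gt k 0 with hk | hk
  · exact finite_heckeAlgebra_of_forall_eq_zero N k S (cuspForm_eq_zero_of_nonpos N hk)
  · rcases eq_or_ne k 1 with rfl | hk1
    · exact finite_heckeAlgebra_of_forall_eq_zero N 1 S
        (cuspForm_eq_zero_of_odd N (by decide))
    · obtain ⟨m, rfl⟩ : ∃ m : ℕ, k = (m : ℤ) + 2 := ⟨(k - 2).toNat, by omega⟩
      exact finite_heckeAlgebra_of_two_le N m S

end Fermat.Agent.S22
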