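import Fermat.Statements.S23
import Fermat.Agent.S23.Bdd
import Fermat.Agent.S23.RatBasis
import Fermat.Agent.S23.FinDim

set_option autoImplicit false
open CuspForm

namespace Fermat.Agent.S23

open UpperHalfPlane ModularFormClass in
/-- the `n`-th `q`-expansion coefficient as a linear functional -/
noncomputable def coeffL (N : ℕ) [NeZero N] (k : ℤ) (n : ℕ) : CuspForm (Γ0 N) k →ₗ[ℂ] ℂ where
  toFun f := (qExpansion 1 f).coeff n
  map_add' f g := by
    have hf : Nice (f : ℍ → ℂ) := Nice.of_modularForm (one_mem_strictPeriods_Γ0 N) f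
    have hg : Nice (g : ℍ → ℂ) := Nice.of_modularForm (one_mem_strictPeriods_Γ0 N) g
    rw [FunLike.coe_add, qExpansion_add hf.analyticAt hg.analyticAt, map_add]
  map_smul' c f := by
    have hf : Nice (f : ℍ → ℂ) := Nice.of_modularForm (one_mem_strictPeriods_Γ0 N) f
    rw [FunLike.coe_smul, qExpansion_smul hf.analyticAt, PowerSeries.coeff_smul]
    rfl

open UpperHalfPlane ModularFormClass in
theorem coeffL_apply (N : ℕ) [NeZero N] (k : ℤ) (n : ℕ) (f : CuspForm (Γ0 N) k) :
    coeffL N k n f = (qExpansion 1 f).coeff n := rfl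

open UpperHalfPlane ModularFormClass in
theorem result (N : ℕ) [NeZero N] : CuspForm.HasIntegralStructure N 2 := by
  unfold CuspForm.HasIntegralStructure
  have : FiniteDimensional ℂ (CuspForm (Γ0 N) 2) := finiteDimensional_cuspForm_two N
  have hsep : ∀ v : CuspForm (Γ0 N) 2, (∀ n, coeffL N 2 n v = 0) → v = 0 := by
    intro v hv
    have hvN : Nice (v : ℍ → ℂ) := Nice.of_modularForm (one_mem_strictPeriods_Γ0 N) v
    have h0 : qExpansion 1 (v : ℍ → ℂ) = 0 := by
      ext n
      rw [map_zero]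
      exact hv n
    have h1 := hvN.qExpansion_eq_zero_iff.mp h0
    exact DFunLike.coe_injective h1
  have hconj : ∀ (σ : ℂ ≃+* ℂ) (v : CuspForm (Γ0 N) 2),
      ∃ v' : CuspForm (Γ0 N) 2, ∀ n, coeffL N 2 n v' = σ (coeffL N 2 n v) := by
    intro σ v
    obtain ⟨g, hg⟩ := exists_conj (σ : ℂ →+* ℂ) v
    refine ⟨g, fun n ↦ ?_⟩
    rw [coeffL_apply, coeffL_apply, hg, PowerSeries.coeff_map]
    rfl
  have hT3 := span_rational_eq_top (coeffL N 2) hsep hconj
  rw [eq_top_iff, ← hT3]
  refine Submodule.span_le.mpr ?_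
  intro v hv
  obtain ⟨M, hM, hMint⟩ := bddDenom_of_rat v hv
  have hvN : Nice (v : ℍ → ℂ) := Nice.of_modularForm (one_mem_strictPeriods_Γ0 N) v
  have h1 : ((M : ℂ) • v) ∈ CuspForm.intLattice N 2 := by
    refine Submodule.subset_span fun n ↦ ?_
    obtain ⟨m, hm⟩ := hMint n
    refine ⟨m, ?_⟩
    rw [ModularFormClass.qCoeff, FunLike.coe_smul, qExpansion_smul hvN.analyticAt,
      PowerSeries.coeff_smul, smul_eq_mul, hm]
  have hM' : (M : ℂ) ≠ 0 := by exact_mod_cast hM.ne'
  have h2 : v = ((M : ℂ)⁻¹) • ((M : ℂ) • v) := by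
    rw [smul_smul, inv_mul_cancel₀ hM', one_smul]
  rw [h2]
  exact Submodule.smul_mem _ _ (Submodule.subset_span h1)

end Fermat.Agent.S23
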