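import Fermat.Statements.S28
import Fermat.Agent.S28.FromRho
import Fermat.Agent.S28.Algebra
import Fermat.Agent.S28.IGFinal

set_option autoImplicit false
open AlgebraicGeometry CategoryTheory CategoryTheory.Limits ModularCurve ModularCurve.IgusaScheme
noncomputable section
set_option autoImplicit false
open ModularCurve ModularCurve.IgusaScheme

namespace Fermat.Agent.S28

set_option maxHeartbeats 4000000 in
set_option synthInstance.maxHeartbeats 400000 in
theorem result
    (N : ℕ) [NeZero N] (ℓ : ℕ) [Fact ℓ.Prime] (hℓN : ¬ ℓ ∣ N)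
    (K : Type) [Field K] [CharP K ℓ] [Algebra ↥(GaloisRep.ratLocalizedAt ℓ) K] :
    IsIntegral ↑(pullback (igusaTo N ℓ)
      (Spec.map (CommRingCat.ofHom (algebraMap ↥(GaloisRep.ratLocalizedAt ℓ) K)))) := by
  have hIG : Algebra.IG N ℓ := ig N ℓ hℓN
  exact isIntegral_pullback_of_rho N ℓ
    (Algebra.exists_rho_fin N ℓ hIG) (Algebra.exists_rho_inf N ℓ hIG)
    (Algebra.exists_rho_mid N ℓ hIG) K

end Fermat.Agent.S28
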