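import Fermat.Statements.S29
import Fermat.Agent.S29.Final
import Fermat.Agent.S29.EigenFinal

/-!
# S29: the residual Galois representation attached to a normalised weight-2 eigenform

Final wiring of campaign 79: `Final.result_of_eigenvector` (piece E: the representation on the
Galois orbit of a Hecke eigenvector in `k₀ ⊗ J₀(N)[p]`, Eichler–Shimura relation, Frobenius
density, descent to `k`) applied to `D5F.eigenvectorExists` (pieces D1–D5: the eigenvector).
-/

set_option autoImplicit false
open CuspForm CuspForm.IsNormalizedEigenform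

namespace Fermat.Agent.S29

theorem result
    {N : ℕ} {g : CuspForm (CongruenceSubgroup.Gamma0 N) 2} (hg : g.IsNormalizedEigenform)
    {p : ℕ} (hp : p.Prime) {k : Type} [Field k] [CharP k p]
    (φ : integralClosure ℤ ℂ →+* k) :
    ∃ ρ : ResidualGaloisRep k, ρ.IsAttachedTo g φ ∧
      ∀ ℓ : ℕ, ℓ.Prime → ¬ ℓ ∣ N * p → ρ.IsUnramifiedAt ℓ := by
  exact Fermat.Agent.S29.Final.result_of_eigenvector Fermat.Agent.S29.D5F.eigenvectorExists hg hp φ

end Fermat.Agent.S29
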