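import Fermat.Statements.S31
import Fermat.Agent.S31.MainCore
import Fermat.Agent.S31.MainAlg
import Fermat.Agent.S31.MainTrace
import Fermat.Agent.S31.Rigid
import Fermat.Agent.S31.LatRes

set_option autoImplicit false
variable {p : ℕ} {N : ℕ} [NeZero N] {S : Finset ℕ}
  {𝒪 : Type} [CommRing 𝒪] [IsDomain 𝒪] [IsDiscreteValuationRing 𝒪]
  [IsAdicComplete (IsLocalRing.maximalIdeal 𝒪) 𝒪]
  {θ : CuspForm.heckeAlgebra N 2 (↑S : Set ℕ) →+* IsLocalRing.ResidueField 𝒪}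
  {T : Type} [CommRing T] [IsLocalRing T] [IsNoetherianRing T]
  [IsAdicComplete (IsLocalRing.maximalIdeal T) T] [Algebra 𝒪 T] [IsLocalHom (algebraMap 𝒪 T)]
  [Module.Finite 𝒪 T] [Module.Free 𝒪 T]
open CuspForm CuspForm.HeckeGaloisRepDatum

namespace Fermat.Agent.S31

open Polynomial Fermat.Agent.S31.Main Fermat.Agent.S31.Lat in
/-- the traces of `g` and `g h` agree modulo every power of the maximal ideal -/
theorem trace_sub_mem (hp : p.Prime)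
    (hp𝒪 : (p : 𝒪) ∈ IsLocalRing.maximalIdeal 𝒪) (hpS : p ∈ S)
    (hNS : ∀ q : ℕ, q.Prime → q ∣ N → q ∈ S)
    (H : CuspForm.HeckeGaloisRepDatum N (↑S : Set ℕ) 𝒪 θ T)
    (q : ℕ) (hq : q.Prime) (hqS : q ∉ S)
    (P : ValuationSubring (AlgebraicClosure ℚ)) (hP : P.LiesOverPrime q)
    (h : AlgebraicClosure ℚ ≃ₐ[ℚ] AlgebraicClosure ℚ) (hh : h ∈ P.inertiaSubgroupIn ℚ)
    (g : AlgebraicClosure ℚ ≃ₐ[ℚ] AlgebraicClosure ℚ) (k : ℕ) :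
    H.ρ.trace g - H.ρ.trace (g * h) ∈ IsLocalRing.maximalIdeal T ^ k := by
  obtain ⟨M₀, hM₀, hsat⟩ := hecke_saturation N (↑S : Set ℕ)
  obtain ⟨L, hL, htr⟩ := exists_trace_level H.ρ k
  obtain ⟨ℓ, hℓ, hℓN, hℓS, ℓ', hℓ', hℓN', hℓS', A, A', σ, σ', a, a', hA, hA', hσ, hσ', hg, hgh,
    hdiv⟩ := exists_frob_pair hp hpS hNS hq hqS hP hh g (k + padicValNat p M₀) L hL
  have hi : ℓ.Prime ∧ ¬ ℓ ∣ N ∧ ℓ ∉ (↑S : Set ℕ) := ⟨hℓ, hℓN, hℓS⟩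
  have hi' : ℓ'.Prime ∧ ¬ ℓ' ∣ N ∧ ℓ' ∉ (↑S : Set ℕ) := ⟨hℓ', hℓN', hℓS'⟩
  have hPpar : evPar N (↑S : Set ℕ)
      (aeval (FreeAlgebra.ι ℤ (⟨ℓ, hi⟩ : HIdx N (↑S : Set ℕ))) (lucasV (ℓ : ℤ) a)
        - aeval (FreeAlgebra.ι ℤ (⟨ℓ', hi'⟩ : HIdx N (↑S : Set ℕ))) (lucasV (ℓ' : ℤ) a'))
      = aeval (Tpar hℓ hℓN) (lucasV (ℓ : ℤ) a) - aeval (Tpar hℓ' hℓN') (lucasV (ℓ' : ℤ) a') := by
    rw [map_sub, ← Polynomial.aeval_algHom_apply, ← Polynomial.aeval_algHom_apply, evPar_ι,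
      evPar_ι]
    rfl
  have hPT : evT N (↑S : Set ℕ)
      (aeval (FreeAlgebra.ι ℤ (⟨ℓ, hi⟩ : HIdx N (↑S : Set ℕ))) (lucasV (ℓ : ℤ) a)
        - aeval (FreeAlgebra.ι ℤ (⟨ℓ', hi'⟩ : HIdx N (↑S : Set ℕ))) (lucasV (ℓ' : ℤ) a'))
      = aeval (heckeAlgebra.T hℓ hℓN hℓS) (lucasV (ℓ : ℤ) a)
        - aeval (heckeAlgebra.T hℓ' hℓN' hℓS') (lucasV (ℓ' : ℤ) a') := by
    rw [map_sub, ← Polynomial.aeval_algHom_apply, ← Polynomial.aeval_algHom_apply, evT_ι, evT_ι]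
  obtain ⟨Q, hQ⟩ := hsat (p ^ (k + padicValNat p M₀)) _ (fun c => by
    rw [hPpar, LinearMap.sub_apply]
    exact hdiv c)
  rw [hPT] at hQ
  have h1 := trace_frob_pow_sub_mem hp hp𝒪 H hℓ hℓN hℓS hℓ' hℓN' hℓS' hA hA' hσ hσ' a a' M₀ hM₀ k
    (k + padicValNat p M₀) le_rfl (evT N (↑S : Set ℕ) Q) hQ
  have h2 := htr g (σ ^ a) hg
  have h3 := htr (g * h) (σ' ^ a') hgh
  have e : H.ρ.trace g - H.ρ.trace (g * h)
      = (H.ρ.trace g - H.ρ.trace (σ ^ a)) + (H.ρ.trace (σ ^ a) - H.ρ.trace (σ' ^ a'))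
        - (H.ρ.trace (g * h) - H.ρ.trace (σ' ^ a')) := by ring
  rw [e]
  exact Ideal.sub_mem _ (Ideal.add_mem _ h2 h1) h3

theorem result (hp : p.Prime)
    (hp𝒪 : (p : 𝒪) ∈ IsLocalRing.maximalIdeal 𝒪) (hpS : p ∈ S)
    (hNS : ∀ q : ℕ, q.Prime → q ∣ N → q ∈ S)
    (H : CuspForm.HeckeGaloisRepDatum N (↑S : Set ℕ) 𝒪 θ T)
    (q : ℕ) (hq : q.Prime) (hqS : q ∉ S) :
    H.ρ.IsUnramifiedAt q := by
  intro P hP h hh
  apply Fermat.Agent.S31.R.eq_one_of_trace' H.ρ H.residual_absIrr h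
  intro g
  have key : H.ρ.trace g - H.ρ.trace (g * h) = 0 := by
    have hbot : ⨅ k : ℕ, IsLocalRing.maximalIdeal T ^ k = ⊥ :=
      Ideal.iInf_pow_eq_bot_of_isLocalRing _ (IsLocalRing.maximalIdeal.isMaximal T).ne_top
    have hmem : H.ρ.trace g - H.ρ.trace (g * h) ∈ ⨅ k : ℕ, IsLocalRing.maximalIdeal T ^ k := by
      rw [Ideal.mem_iInf]
      intro k
      exact trace_sub_mem hp hp𝒪 hpS hNS H q hq hqS P hP h hh g k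
    rw [hbot] at hmem
    exact hmem
  exact (sub_eq_zero.mp key).symm

end Fermat.Agent.S31
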