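import Fermat.Statements.S41
import Fermat.Agent.S08
import Fermat.Agent.S41.AsmMain
import Fermat.Agent.S41.AsmC
import Fermat.Agent.S41.AsmEnd
import Fermat.Agent.S41.TparComm
import Fermat.Agent.S41.RHCore
import Fermat.Agent.S41.RHPrime

/-!
# S41: level raising (Ribet, Diamond–Taylor)

Assembly of campaign C81.  For `N = 1` there is no normalized eigenform (S08).  For `N ≥ 2`:
* `TC.comm_concrete`: the Hecke operators on the parabolic lattices commute;
* Route H (`RH.apply_eq_zero`, `RH.exists_hom_snd`, `RH.exists_prime_dvd_sub_one`): hypothesis (A),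
  the local injectivity of the degeneracy map `i` at the maximal ideal `𝔫` of `W` mod `p`;
* `Asm.hB_concrete` (duality) and `AsmC.hC_concrete` (the level raising congruence) inside
  `Asm.exists_ker_not_locally_zero`: a class in `ker i†` which is not locally zero at `𝔫`;
* `Asm.exists_form_of_ker`: the eigenform of level `N q'`, new at `q'`.
-/

set_option autoImplicit false
open WeierstrassCurve WeierstrassCurve.Affine WeierstrassCurve.Affine.Point
open scoped CongruenceSubgroup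
open WeierstrassCurve

namespace Fermat.Agent.S41

theorem result
    (E : WeierstrassCurve ℚ) [E.IsElliptic] {W : WeierstrassCurve ℤ} (hW : W.IsIntegralModelOf E)
    {p N q' : ℕ} (hp : p.Prime) (hp2 : p ≠ 2) (hN : 0 < N) (hq' : q'.Prime) (hq'N : ¬ q' ∣ N) (hq'p : q' ≠ p)
    (hirr : GaloisRepIsIrreducible (K := AlgebraicClosure ℚ) ℚ E p)
    (f : CuspForm (CongruenceSubgroup.Gamma0 N) 2) (𝔪 : Ideal (integralClosure ℤ ℂ))
    (hf : f.IsNormalizedEigenform) (hmax : 𝔪.IsMaximal) (hpm : (p : integralClosure ℤ ℂ) ∈ 𝔪)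
    (hcong : ∀ ℓ : ℕ, ℓ.Prime → W.IsGoodPrimeFor ℓ → ¬ ℓ ∣ N → ℓ ≠ p →
      ∃ a : integralClosure ℤ ℂ, (a : ℂ) = ModularFormClass.qCoeff f ℓ ∧
        a - ((W.apOfModel ℓ : ℤ) : integralClosure ℤ ℂ) ∈ 𝔪)
    (hLR : ∃ a : integralClosure ℤ ℂ, (a : ℂ) = ModularFormClass.qCoeff f q' ∧
      a ^ 2 - ((q' : integralClosure ℤ ℂ) + 1) ^ 2 ∈ 𝔪) :
    ∃ (g : CuspForm (CongruenceSubgroup.Gamma0 (N * q')) 2) (𝔪' : Ideal (integralClosure ℤ ℂ)),
      g.IsNormalizedEigenform ∧ 𝔪'.IsMaximal ∧ (p : integralClosure ℤ ℂ) ∈ 𝔪' ∧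
      (∀ ℓ : ℕ, ℓ.Prime → W.IsGoodPrimeFor ℓ → ¬ ℓ ∣ N * q' → ℓ ≠ p →
        ∃ a : integralClosure ℤ ℂ, (a : ℂ) = ModularFormClass.qCoeff g ℓ ∧
          a - ((W.apOfModel ℓ : ℤ) : integralClosure ℤ ℂ) ∈ 𝔪') ∧
      g.IsNewAt q' := by
  classical
  rcases Nat.lt_or_ge N 2 with hN1 | hN2
  · -- `N = 1`: there is no normalized eigenform of level `1` and weight `2`
    have h1 : N = 1 := by omega
    subst h1
    exact absurd (Fermat.Agent.S08.result f) (Fermat.Agent.S29.D1.eigenform_ne_zero hf)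
  · haveI : NeZero N := ⟨by omega⟩
    haveI : Fact q'.Prime := ⟨hq'⟩
    haveI : Fact p.Prime := ⟨hp⟩
    have hcop : Nat.Coprime N q' := ((Nat.Prime.coprime_iff_not_dvd hq').mpr hq'N).symm
    have hC : Asm.Comm N q' p W hq'N := TC.comm_concrete N q' p W hq'N
    have H1 : Asm.ApplyEqZero N q' p := by
      intro c hpar Φ hΦ ℓ _ hℓN hℓq lam hT hunit γ ha
      exact RH.apply_eq_zero hq' hcop c hpar Φ hΦ hℓN hℓq lam hT hunit γ ha
    have Hs : Asm.SndHom N q' p := fun hq c₁ c₂ hker => RH.exists_hom_snd hq hcop c₁ c₂ hker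
    have H2 : Asm.PrimeSupply p W := fun S a' a'' ha' ha'' hcop' =>
      RH.exists_prime_dvd_sub_one E hW hp hp2 hirr S a' a'' ha' ha'' hcop'
    have HC := AsmC.hC_concrete hC f hf 𝔪 hmax hpm
      (fun i => hcong i.1 i.prime i.good i.not_dvd_left i.ne) hLR
    obtain ⟨y, hy, hy'⟩ := Asm.exists_ker_not_locally_zero hC hN2 H1 Hs H2 HC
    exact Asm.exists_form_of_ker hC y hy hy'

end Fermat.Agent.S41
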