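import Fermat.Statements.S49
import Fermat.Agent.S49.Main

set_option autoImplicit false
open CuspForm EisensteinWeightOne CongruenceSubgroup ModularFormClass

namespace Fermat.Agent.S49

theorem finiteDimensional_of_hasIntegralBasis {N : ℕ} [NeZero N]
    (h : CuspForm.HasIntegralBasis N) : FiniteDimensional ℂ (CuspForm (Gamma0 N) 2) := by
  obtain ⟨S, hS⟩ := CuspForm.intLattice_fg N 2
  refine ⟨⟨S, ?_⟩⟩
  rw [eq_top_iff, ← h, Submodule.span_le]
  intro f hf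
  have hfL : f ∈ CuspForm.intLattice N 2 :=
    (mem_intLattice_iff f).mpr ((mem_qIntegralSet_iff f).mp hf)
  rw [← hS] at hfL
  exact Submodule.span_subset_span ℤ ℂ _ hfL

theorem heckeRel_of_eigen {N : ℕ} [NeZero N] (v : CuspForm (Gamma0 N) 2)
    (hv : ∀ t : TT N, ∃ c : ℂ, (t : Module.End ℂ (CuspForm (Gamma0 N) 2)) v = c • v) :
    HeckeRel (fun ℓ => if ℓ ∣ N then 0 else (ℓ : ℂ)) (fun n => qCoeff (⇑v) n) := by
  intro ℓ hℓ
  by_cases hℓN : ℓ ∣ N
  · obtain ⟨c, hc⟩ := hv (CuspForm.heckeAlgebra.U hℓ hℓN (Set.notMem_empty ℓ))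
    refine ⟨c, fun n => ?_⟩
    have := congrArg (fun f : CuspForm (Gamma0 N) 2 => qCoeff (⇑f) n) hc
    simp only [CuspForm.heckeAlgebra.coe_U, qCoeff_heckeULin hℓ, qCoeff_smul] at this
    simp only [if_pos hℓN, zero_mul, ite_self, add_zero]
    exact this
  · obtain ⟨c, hc⟩ := hv (CuspForm.heckeAlgebra.T hℓ hℓN (Set.notMem_empty ℓ))
    refine ⟨c, fun n => ?_⟩
    have := congrArg (fun f : CuspForm (Gamma0 N) 2 => qCoeff (⇑f) n) hc
    simp only [CuspForm.heckeAlgebra.coe_T, qCoeff_heckeTLin, qCoeff_smul] at this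
    simp only [if_neg hℓN]
    exact this

theorem result
    {N : ℕ} [NeZero N] (h : CuspForm.HasIntegralBasis N) {a : ℕ → ℤ}
    (heig : FormalHecke.IsEigensystem
      (fun ℓ => if ℓ ∣ N then 0 else ((chiNegThree ℓ : ℤ) : ℤ)) a)
    (hreal : CuspForm.IsLatticeRealized N a) :
    ∃ (f : CuspForm (Gamma0 N) 2) (_ : f.IsNormalizedEigenform)
      (𝔪' : Ideal (integralClosure ℤ ℂ)), 𝔪'.IsMaximal ∧
      ((3 : ℕ) : integralClosure ℤ ℂ) ∈ 𝔪' ∧
      ∀ (ℓ : ℕ) (_ : ℓ.Prime) (_ : ¬ ℓ ∣ N),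
        ∃ c : integralClosure ℤ ℂ, (c : ℂ) = ModularFormClass.qCoeff f ℓ ∧
          c - (a ℓ : integralClosure ℤ ℂ) ∈ 𝔪' := by
  classical
  obtain ⟨f₀, af, D⟩ := exists_realData heig hreal
  have hfd : FiniteDimensional ℂ (CuspForm (Gamma0 N) 2) := finiteDimensional_of_hasIntegralBasis h
  have hfin : Module.Finite ℤ (TT N) := finite_TT h
  have hnoeth : IsNoetherianRing (TT N) := IsNoetherianRing.of_finite ℤ (TT N)
  have hint : Algebra.IsIntegral ℤ (TT N) := Algebra.IsIntegral.of_finite ℤ (TT N)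
  have hmax : (eigenIdeal f₀).IsMaximal := D.eigenIdeal_isMaximal
  let ρ : TT N →+* Module.End ℂ (CuspForm (Gamma0 N) 2) := (TT N).val.toRingHom
  have hρ : Function.Injective ρ := Subtype.val_injective
  obtain ⟨v, θ, hv0, hθ, hker⟩ := exists_eigenvector_ker_le ρ hρ (eigenIdeal f₀)
  obtain ⟨θ', 𝔪', h𝔪'max, hθ', hm𝔪'⟩ := exists_maximal_over θ (eigenIdeal f₀) hker
  have hθv : ∀ t : TT N, (t : Module.End ℂ (CuspForm (Gamma0 N) 2)) v = θ t • v := hθ
  have hrel := heckeRel_of_eigen v (fun t => ⟨θ t, hθv t⟩)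
  have hb1 : qCoeff (⇑v) 1 ≠ 0 := by
    intro h1
    apply hv0
    apply eq_zero_of_qCoeff
    intro n
    rcases Nat.eq_zero_or_pos n with rfl | hn
    · exact qCoeff_zero_eq v
    · exact hrel.eq_zero h1 n hn
  set g : CuspForm (Gamma0 N) 2 := (qCoeff (⇑v) 1)⁻¹ • v with hgdef
  have hg : ∀ n, qCoeff (⇑g) n = (qCoeff (⇑v) 1)⁻¹ * qCoeff (⇑v) n := fun n => qCoeff_smul _ _ _
  have hrelg : HeckeRel (fun ℓ => if ℓ ∣ N then 0 else (ℓ : ℂ)) (fun n => qCoeff (⇑g) n) := by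
    have := hrel.smul (qCoeff (⇑v) 1)⁻¹
    simpa only [hg] using this
  have hg1 : qCoeff (⇑g) 1 = 1 := by
    rw [hg]
    exact inv_mul_cancel₀ hb1
  have hgT : ∀ (ℓ : ℕ) (hℓ : ℓ.Prime) (hℓN : ¬ ℓ ∣ N),
      qCoeff (⇑g) ℓ = θ (CuspForm.heckeAlgebra.T hℓ hℓN (Set.notMem_empty ℓ)) := by
    intro ℓ hℓ hℓN
    have hc := hθv (CuspForm.heckeAlgebra.T hℓ hℓN (Set.notMem_empty ℓ))
    have := congrArg (fun f : CuspForm (Gamma0 N) 2 => qCoeff (⇑f) 1) hc
    simp only [CuspForm.heckeAlgebra.coe_T, qCoeff_heckeTLin, qCoeff_smul, one_mul] at this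
    have hnd : ¬ ℓ ∣ 1 := fun hd => hℓ.one_lt.ne' (Nat.dvd_one.mp hd)
    rw [if_neg hnd, add_zero] at this
    rw [hg, this]
    field_simp
  refine ⟨g, ⟨hg1, hrelg.mul_coprime hg1, ?_, ?_⟩, 𝔪', h𝔪'max, ?_, ?_⟩
  · intro p r hp hpN
    have := hrelg.prime_pow hg1 hp r
    simp only [if_neg hpN] at this
    exact this
  · intro p r hp hpN
    have := hrelg.prime_pow hg1 hp r
    simp only [if_pos hpN, zero_mul, sub_zero] at this
    exact this
  · have h3 : ((3 : ℤ) : TT N) ∈ eigenIdeal f₀ := (D.intCast_mem_iff 3).mpr dvd_rfl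
    have := hm𝔪' _ h3
    rw [map_intCast] at this
    exact_mod_cast this
  · intro ℓ hℓ hℓN
    refine ⟨θ' (CuspForm.heckeAlgebra.T hℓ hℓN (Set.notMem_empty ℓ)), ?_, ?_⟩
    · rw [hθ', hgT ℓ hℓ hℓN]
    · have hmem : CuspForm.heckeAlgebra.T hℓ hℓN (Set.notMem_empty ℓ) - ((a ℓ : ℤ) : TT N) ∈
          eigenIdeal f₀ := by
        rw [mem_eigenIdeal]
        have : ((CuspForm.heckeAlgebra.T hℓ hℓN (Set.notMem_empty ℓ) - ((a ℓ : ℤ) : TT N) : TT N) :
            Module.End ℂ (CuspForm (Gamma0 N) 2)) f₀ =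
            CuspForm.heckeTLin 2 hℓ hℓN f₀ - ((a ℓ : ℤ) : ℂ) • f₀ := by
          have h1 : ((CuspForm.heckeAlgebra.T hℓ hℓN (Set.notMem_empty ℓ) - ((a ℓ : ℤ) : TT N) : TT N) :
              Module.End ℂ (CuspForm (Gamma0 N) 2)) =
              CuspForm.heckeTLin 2 hℓ hℓN -
                ((a ℓ : ℤ) : Module.End ℂ (CuspForm (Gamma0 N) 2)) := by
            push_cast
            rfl
          rw [h1, LinearMap.sub_apply, Module.End.intCast_apply, Int.cast_smul_eq_zsmul]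
        rw [this]
        exact D.div3_heckeT hℓ hℓN
      have := hm𝔪' _ hmem
      simpa using this

end Fermat.Agent.S49
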