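import Fermat.Statements.S51
import Fermat.Agent.S51.PartT
import Fermat.Agent.S51.PartM
import Fermat.Agent.S51.Descent15

set_option autoImplicit false
open WeierstrassCurve WeierstrassCurve.Affine WeierstrassCurve.Affine.Point
open CuspForm ModularFormClass UpperHalfPlane
open WeierstrassCurve

namespace Fermat.Agent.S51

theorem result (W : WeierstrassCurve ℤ) (hΔ : W.Δ ≠ 0) (hW : W.IsSemistableModel) : W.ModRepIsIrreducible 3 ∨ W.ModRepIsIrreducible 5 := by
  by_contra hcon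
  rw [not_or] at hcon
  obtain ⟨h3, h5⟩ := hcon
  set E : WeierstrassCurve ℚ := W.map (Int.castRingHom ℚ) with hE
  have hΔE : E.Δ ≠ 0 := by
    rw [hE, WeierstrassCurve.map_Δ]
    simpa using hΔ
  obtain ⟨X3, sg, pi, hpsi, hR1, hR2, hdel, hR⟩ := partT E hΔE h3 h5
  have hc4 : E.c₄ = (W.c₄ : ℚ) := by rw [hE, WeierstrassCurve.map_c₄]; rfl
  have hc6 : E.c₆ = (W.c₆ : ℚ) := by rw [hE, WeierstrassCurve.map_c₆]; rfl
  exact partM_of_descent descent15 W.c₄ W.c₆ W.Δ W.c_relation hΔ hW (cA E) (cB E) X3 sg pi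
    (by unfold cA; rw [hc4]) (by unfold cB; rw [hc6]) hpsi hR1 hR2 hdel hR

end Fermat.Agent.S51
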