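import Fermat.Statements.S54
import Fermat.Agent.Lib.Frobenius

set_option autoImplicit false
open GaloisRep GaloisRep.DeformationRingData

namespace Fermat.Agent.S54

open Polynomial in
/-- The linear coefficient of the characteristic polynomial of a base-changed,
conjugated endomorphism lies in the range of the base change map. -/
theorem coeff_charpoly_mem_range {R T : Type} [CommRing R] [CommRing T] [IsLocalRing R]
    [IsLocalRing T] (φ : R →+* T) (hφ : IsLocalHom φ) (ρR : GaloisRepAdic R)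
    (ρT : GaloisRepAdic T) (e : (ρR.baseChangeAlong φ hφ).Equiv ρT)
    (σ : AlgebraicClosure ℚ ≃ₐ[ℚ] AlgebraicClosure ℚ) :
    LinearMap.charpoly (ρT.ρ σ) = (LinearMap.charpoly (ρR.ρ σ)).map φ := by
  let _ : Algebra R T := φ.toAlgebra
  have h1 : ρT.ρ σ = e.toLinearEquiv.conj ((ρR.baseChangeAlong φ hφ).ρ σ) := by
    ext x
    simp only [LinearEquiv.conj_apply, LinearMap.coe_comp, LinearEquiv.coe_coe,
      Function.comp_apply]
    rw [e.map_apply, LinearEquiv.apply_symm_apply]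
  rw [h1, LinearEquiv.charpoly_conj]
  exact LinearMap.charpoly_baseChange (ρR.ρ σ) T

theorem result {𝒪 : Type} [CommRing 𝒪] [IsDomain 𝒪] [IsDiscreteValuationRing 𝒪] [IsAdicComplete (IsLocalRing.maximalIdeal 𝒪) 𝒪] {ρbar : ResidualGaloisRep (IsLocalRing.ResidueField 𝒪)} {𝒟 : ∀ ⦃A : Type⦄ [CommRing A] [IsLocalRing A] [Algebra 𝒪 A], GaloisRepAdic A → Prop} (D : GaloisRep.DeformationRingData 𝒪 ρbar 𝒟) {N : ℕ} [NeZero N] {S : Set ℕ} {θ : CuspForm.heckeAlgebra N 2 S →+* IsLocalRing.ResidueField 𝒪} {T : Type} [CommRing T] [IsLocalRing T] [IsNoetherianRing T] [IsAdicComplete (IsLocalRing.maximalIdeal T) T] [Algebra 𝒪 T] [IsLocalHom (algebraMap 𝒪 T)] [Module.Finite 𝒪 T] [Module.Free 𝒪 T] (H : CuspForm.HeckeGaloisRepDatum N S 𝒪 θ T) (hS : ∀ q : ℕ, q.Prime → q ∣ N → q ∈ S) (h𝒟 : 𝒟 H.ρ) (hres : H.ρ.residual.IsEquiv (ρbar.baseChangeAlong (IsLocalRing.ResidueField.map (algebraMap 𝒪 T)))) : ∃ φ : D.R →ₐ[𝒪] T, Function.Surjective φ ∧ ∃ hφ :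 IsLocalHom (φ : D.R →+* T), (D.ρ.baseChangeAlong (φ : D.R →+* T) hφ).IsEquiv H.ρ := by
  obtain ⟨φ, ⟨hφ, ⟨e⟩⟩, -⟩ := D.universal T H.residue_surjective H.ρ h𝒟 hres
  refine ⟨φ, ?_, hφ, ⟨e⟩⟩
  -- surjectivity: the range of `φ` contains all `π t`
  have hgen : ∀ (t : Module.End ℂ (CuspForm (CongruenceSubgroup.Gamma0 N) 2))
      (ht : t ∈ CuspForm.heckeAlgebra N 2 S), H.π ⟨t, ht⟩ ∈ φ.range := by
    intro t ht
    induction ht using Algebra.adjoin_induction with
    | mem x hx =>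
      rcases hx with ⟨ℓ, hℓ, hℓN, hℓS, rfl⟩ | ⟨q, hqN, hq, hqS, rfl⟩
      · obtain ⟨A, hA, σ, hσ⟩ := Fermat.Agent.Lib.Frobenius.exists_isFrobeniusAt hℓ
        have h1 := H.charpoly_frob ℓ hℓ hℓN hℓS A hA σ hσ
        have h2 := coeff_charpoly_mem_range (φ : D.R →+* T) hφ D.ρ H.ρ e σ
        rw [h2] at h1
        have h3 := congrArg (fun p => Polynomial.coeff p 1) h1
        simp only [Polynomial.coeff_map, Polynomial.coeff_add, Polynomial.coeff_sub,
          Polynomial.coeff_X_pow, Polynomial.coeff_C_mul, Polynomial.coeff_X_one,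
          Polynomial.coeff_C] at h3
        norm_num at h3
        refine ⟨-(LinearMap.charpoly (D.ρ.ρ σ)).coeff 1, ?_⟩
        have h4 : φ (-(LinearMap.charpoly (D.ρ.ρ σ)).coeff 1) =
            H.π (CuspForm.heckeAlgebra.T hℓ hℓN hℓS) := by
          rw [map_neg, h3, neg_neg]
        exact h4
      · exact absurd (hS q hq hqN) hqS
    | algebraMap r =>
      have : (⟨algebraMap ℤ _ r, Subalgebra.algebraMap_mem _ r⟩ : CuspForm.heckeAlgebra N 2 S)
          = algebraMap ℤ _ r := rfl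
      rw [this, eq_intCast, map_intCast]
      exact intCast_mem _ r
    | add x y hx hy hx' hy' =>
      have : (⟨x + y, Subalgebra.add_mem _ hx hy⟩ : CuspForm.heckeAlgebra N 2 S)
          = ⟨x, hx⟩ + ⟨y, hy⟩ := rfl
      rw [this, map_add]
      exact add_mem hx' hy'
    | mul x y hx hy hx' hy' =>
      have : (⟨x * y, Subalgebra.mul_mem _ hx hy⟩ : CuspForm.heckeAlgebra N 2 S)
          = ⟨x, hx⟩ * ⟨y, hy⟩ := rfl
      rw [this, map_mul]
      exact mul_mem hx' hy'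
  have hle : Algebra.adjoin 𝒪 (Set.range H.π) ≤ φ.range := by
    refine Algebra.adjoin_le ?_
    rintro _ ⟨⟨t, ht⟩, rfl⟩
    exact hgen t ht
  rw [H.adjoin_range_π] at hle
  intro x
  exact hle (Algebra.mem_top (x := x))

end Fermat.Agent.S54
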