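import Fermat.Statements.S57
import Fermat.Agent.S57.Depth
import Fermat.Agent.S57.PowerSeries

set_option autoImplicit false
open Algebra Algebra.PatchingLevel

namespace Fermat.Agent.S57

open MvPowerSeries RingTheory.Sequence IsLocalRing

section Helpers

variable {𝒪 : Type} [CommRing 𝒪]
    {r : ℕ} {R : Type} [CommRing R] [Algebra 𝒪 R]
    {M : Type} [AddCommGroup M] [Module R M]
    (L : Algebra.PatchingLevel 𝒪 r R M ⊥)

/-- The coordinate map `Λ^d → N`, `c ↦ ∑ φ(cᵢ) • bᵢ`, as an additive equivalence. -/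
noncomputable def coordEquiv : (Fin L.d → MvPowerSeries (Fin r) 𝒪) ≃+ L.N :=
  AddEquiv.ofBijective
    ({ toFun := fun c => ∑ i, L.φ (c i) • L.b i
       map_zero' := by simp
       map_add' := by
        intro c c'
        simp [add_smul, Finset.sum_add_distrib] } :
      (Fin L.d → MvPowerSeries (Fin r) 𝒪) →+ L.N)
    ⟨by
      rw [injective_iff_map_eq_zero]
      intro c hc
      have h := (L.b_rel c).mp hc
      funext i
      simpa using h i,
    by
      intro x
      obtain ⟨c, hc⟩ := L.b_span x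
      exact ⟨c, hc.symm⟩⟩

theorem coordEquiv_apply (c : Fin L.d → MvPowerSeries (Fin r) 𝒪) :
    coordEquiv L c = ∑ i, L.φ (c i) • L.b i := rfl

theorem coordEquiv_smul (f : MvPowerSeries (Fin r) 𝒪) (c : Fin L.d → MvPowerSeries (Fin r) 𝒪) :
    coordEquiv L (f • c) = L.φ f • coordEquiv L c := by
  simp only [coordEquiv_apply, Pi.smul_apply, smul_eq_mul, map_mul, mul_smul, Finset.smul_sum]

theorem finite_N : Module.Finite (MvPowerSeries (Fin r) 𝒪) L.N := by
  refine Module.Finite.of_surjective
    (Fintype.linearCombination (MvPowerSeries (Fin r) 𝒪) L.b) ?_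
  intro x
  obtain ⟨c, hc⟩ := L.b_span x
  refine ⟨fun i => L.φ (c i), ?_⟩
  rw [hc, Fintype.linearCombination_apply]

theorem isWeaklyRegular_pi {A : Type} [CommRing A] {rs : List A} (d : ℕ)
    (h : IsWeaklyRegular A rs) : IsWeaklyRegular (Fin d → A) rs :=
  ((TensorProduct.lid A (Fin d → A)).isWeaklyRegular_congr rs).mp
    (h.isWeaklyRegular_rTensor (M₂ := Fin d → A))

theorem isWeaklyRegular_N {rs : List (MvPowerSeries (Fin r) 𝒪)}
    (h : IsWeaklyRegular (MvPowerSeries (Fin r) 𝒪) rs) :
    IsWeaklyRegular L.N (rs.map L.φ) := by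
  refine (AddEquiv.isWeaklyRegular_congr (e := coordEquiv L) ?_).mp (isWeaklyRegular_pi L.d h)
  rw [List.forall₂_map_right_iff, List.forall₂_same]
  intro f _ c
  exact coordEquiv_smul L f c

/-- If `N` is free over `Λ` with basis `e`, then coordinates of elements of `I • ⊤` lie in `I`. -/
theorem repr_mem_of_mem_smul_top {A N ι : Type*} [CommRing A] [AddCommGroup N] [Module A N]
    (e : Module.Basis ι A N) (I : Ideal A) {x : N} (hx : x ∈ I • (⊤ : Submodule A N)) (i : ι) :
    e.repr x i ∈ I := by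
  refine Submodule.smul_induction_on (p := fun x => e.repr x i ∈ I) hx ?_ ?_
  · intro a ha n _
    rw [map_smul, Finsupp.smul_apply, smul_eq_mul]
    exact Ideal.mul_mem_right _ _ ha
  · intro x y hx hy
    rw [map_add, Finsupp.add_apply]
    exact add_mem hx hy

end Helpers

theorem result
    {𝒪 : Type} [CommRing 𝒪] [IsDomain 𝒪] [IsDiscreteValuationRing 𝒪]
    {r : ℕ} {R : Type} [CommRing R] [Algebra 𝒪 R]
    {M : Type} [AddCommGroup M] [Module R M] [Nontrivial M]
    (L : Algebra.PatchingLevel 𝒪 r R M ⊥) :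
    Module.Free R M ∧ Module.annihilator R M = ⊥ ∧
      RingHom.ker L.ψ = Ideal.span (Set.range fun i : Fin r => L.φ (MvPowerSeries.X i)) := by
  classical
  -- notation
  set I : Ideal (MvPowerSeries (Fin r) 𝒪) :=
    Ideal.span (Set.range fun i : Fin r => L.φ (MvPowerSeries.X i)) with hI
  have hRnt : Nontrivial R := Module.nontrivial R M
  have hNnt : Nontrivial L.N := L.π_surjective.nontrivial
  have hIker : I ≤ RingHom.ker L.ψ := by
    rw [hI, Ideal.span_le]
    rintro _ ⟨i, rfl⟩
    exact L.ψ_φ_X i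
  have hker_ne_top : RingHom.ker L.ψ ≠ ⊤ := RingHom.ker_ne_top _
  -- uniformizer
  obtain ⟨ϖ, hϖ⟩ := IsDiscreteValuationRing.exists_irreducible 𝒪
  have hϖm : maximalIdeal 𝒪 = Ideal.span {ϖ} := hϖ.maximalIdeal_eq
  have hϖreg : IsSMulRegular 𝒪 ϖ := by
    rw [isSMulRegular_iff_right_eq_zero_of_smul]
    intro a ha
    rcases mul_eq_zero.mp ha with h | h
    · exact absurd h hϖ.ne_zero
    · exact h
  -- `N` is finite over `Λ`
  have hfin : Module.Finite (MvPowerSeries (Fin r) 𝒪) L.N := finite_N L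
  -- regular sequence on `N`
  have hreg : IsWeaklyRegular L.N ((gensList r ϖ).map L.φ) :=
    isWeaklyRegular_N L (isWeaklyRegular_gensList r hϖreg)
  have hmem : ∀ y ∈ (gensList r ϖ).map L.φ, y ∈ maximalIdeal (MvPowerSeries (Fin r) 𝒪) := by
    intro y hy
    obtain ⟨x, hx, rfl⟩ := List.mem_map.mp hy
    rw [gensList, List.mem_append, List.mem_ofFn, List.mem_singleton] at hx
    rcases hx with ⟨i, rfl⟩ | rfl
    · exact IsLocalRing.le_maximalIdeal hker_ne_top (hIker (Ideal.subset_span ⟨i, rfl⟩))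
    · have hC : L.φ (C ϖ) = C ϖ := by
        rw [c_eq_algebraMap]
        exact L.φ.commutes ϖ
      rw [hC, IsLocalRing.mem_maximalIdeal, mem_nonunits_iff, isUnit_iff_constantCoeff,
        constantCoeff_C]
      exact hϖ.not_isUnit
  have hfree : Module.Free (MvPowerSeries (Fin r) 𝒪) L.N :=
    free_of_isWeaklyRegular (ofList_gensList_eq_maximalIdeal r hϖm) hreg hmem (by simp)
  -- choose a basis
  let e := Module.Free.chooseBasis (MvPowerSeries (Fin r) 𝒪) L.N
  have hιne : Nonempty (Module.Free.ChooseBasisIndex (MvPowerSeries (Fin r) 𝒪) L.N) :=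
    e.index_nonempty
  obtain ⟨i₀⟩ := hιne
  -- key: coordinates of the kernel of `π` lie in `I`
  have key : ∀ x : L.N, L.π x = 0 → ∀ i, e.repr x i ∈ I := fun x hx i =>
    repr_mem_of_mem_smul_top e I ((L.ker_π x).mp hx) i
  have key' : ∀ f : MvPowerSeries (Fin r) 𝒪, (∀ m : M, L.ψ f • m = 0) → f ∈ I := by
    intro f hf
    have h1 : L.π (f • e i₀) = 0 := by rw [L.π_smul, hf]
    have h2 := key _ h1 i₀
    simpa using h2
  have hkerI : RingHom.ker L.ψ = I := by
    refine le_antisymm ?_ hIker
    intro f hf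
    apply key'
    intro m
    rw [RingHom.mem_ker.mp hf, zero_smul]
  refine ⟨?_, ?_, hkerI⟩
  · -- freeness
    have hli : LinearIndependent R (fun i => L.π (e i)) := by
      rw [Fintype.linearIndependent_iff]
      intro g hg i
      choose f hf using fun j => L.ψ_surjective (g j)
      have h1 : L.π (∑ j, f j • e j) = 0 := by
        rw [map_sum, ← hg]
        refine Finset.sum_congr rfl fun j _ => ?_
        rw [L.π_smul, hf]
      have h2 := key _ h1 i
      rw [e.repr_sum_self] at h2
      rw [← hf i]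
      exact hIker h2
    have hsp : ⊤ ≤ Submodule.span R (Set.range fun i => L.π (e i)) := by
      intro y _
      obtain ⟨x, rfl⟩ := L.π_surjective y
      rw [← e.sum_repr x, map_sum]
      refine Submodule.sum_mem _ fun j _ => ?_
      rw [L.π_smul]
      exact Submodule.smul_mem _ _ (Submodule.subset_span ⟨j, rfl⟩)
    exact Module.Free.of_basis (Module.Basis.mk hli hsp)
  · -- faithfulness
    rw [eq_bot_iff]
    intro a ha
    obtain ⟨f, rfl⟩ := L.ψ_surjective a
    rw [Module.mem_annihilator] at ha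
    rw [Ideal.mem_bot]
    exact hIker (key' f ha)

end Fermat.Agent.S57
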